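import Fermat.Agent.S12.H975.Top12
import Fermat.Agent.S09.H182.Glue

/-!
# Row S09: the PLAIN TOP (row-lead helper975)

`S09_top` is the frozen statement S09 (Mazur: the mod-`p` representation of the Frey curve is
irreducible), unconditional: helper182's glue `S09.H182.result_of_S12` (landed S10, S11, S13)
with `S12.H975.S12_top`.
-/

set_option autoImplicit false

noncomputable section

open WeierstrassCurve WeierstrassCurve.Affine WeierstrassCurve.Affine.Point
open FreyPackage

namespace Fermat.Agent.S09.H975

/-- **The frozen statement S09**, unconditional. -/
theorem S09_top (P : FreyPackage) :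
    GaloisRepIsIrreducible (K := AlgebraicClosure ℚ) ℚ P.freyCurve P.p :=
  Fermat.Agent.S09.H182.result_of_S12 Fermat.Agent.S12.H975.S12_top P

end Fermat.Agent.S09.H975

end
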